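import Fermat.Agent.GAL.Gauss.Level

set_option autoImplicit false

noncomputable section

namespace Fermat.Agent.GAL.Gauss

open ModularCurve Polynomial

variable {K : Type} [Field K] (A : ValuationSubring K)

/-- a Gauss integral element of `K(j)` is a quotient of polynomials over `A`. -/
theorem ratJ_frac (c : ↥(gRing A))
    (hc : (c : LaurentSeries K) ∈ IntermediateField.adjoin K {jqModC K}) :
    ∃ R S : (↥A)[X], S.map (IsLocalRing.residue ↥A) ≠ 0 ∧
      iA A (evA A S) * (c : LaurentSeries K) = iA A (evA A R) := by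
  by_cases h0 : (c : LaurentSeries K) = 0
  · exact ⟨0, 1, by simp, by rw [h0, mul_zero, map_zero, map_zero]⟩
  obtain ⟨r, s, hrs⟩ := (IntermediateField.mem_adjoin_simple_iff K _).mp hc
  have hr : r ≠ 0 := by
    rintro rfl
    rw [map_zero, zero_div] at hrs
    exact h0 hrs
  have hs : s ≠ 0 := by
    rintro rfl
    rw [map_zero, div_zero] at hrs
    exact h0 hrs
  obtain ⟨a, R, ha, hR, hrR⟩ := exists_normalise A r hr
  obtain ⟨b, S, hb, hS, hsS⟩ := exists_normalise A s hs
  have hSne := pA_evA_ne_zero A S hS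
  have hRne := pA_evA_ne_zero A R hR
  have hSi := iA_ne_zero_of_pA_ne_zero A hSne
  have hmem : iA A (evA A R) / iA A (evA A S) ∈ gRing A :=
    (mem_gRing_iff A).mpr ⟨evA A R, evA A S, hSne, by field_simp⟩
  have hres : gRes A ⟨_, hmem⟩ = pA A (evA A R) / pA A (evA A S) :=
    gRes_eq A _ hSne (by
      show iA A (evA A S) * (iA A (evA A R) / iA A (evA A S)) = _
      field_simp)
  have hCb : (HahnSeries.C b : LaurentSeries K) ≠ 0 := by
    rw [Ne, map_eq_zero]; exact hb
  have hc2 : (c : LaurentSeries K) =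
      HahnSeries.C (a / b) * (iA A (evA A R) / iA A (evA A S)) := by
    rw [hrs, hrR, hsS, map_mul, map_mul, aeval_C, aeval_C, algebraMap_eq_C, algebraMap_eq_C,
      ← iA_evA, ← iA_evA, map_div₀]
    field_simp
  have hab : a / b ∈ A := by
    refine (C_mul_unit_mem_iff A (a / b) ⟨_, hmem⟩ ?_).mp (hc2 ▸ c.2)
    rw [hres]; exact div_ne_zero hRne hSne
  refine ⟨C ⟨a / b, hab⟩ * R, S, hS, ?_⟩
  have h3 : iA A (evA A (C ⟨a / b, hab⟩ * R)) = HahnSeries.C (a / b) * iA A (evA A R) := by
    rw [map_mul, map_mul]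
    congr 1
    rw [evA, coe_eval₂RingHom, eval₂_C, iA, HahnSeries.C_apply, HahnSeries.C_apply,
      coeffMap_single]
    rfl
  rw [h3, hc2]
  field_simp

theorem iA_evA_mem (Q : (↥A)[X]) : iA A (evA A Q) ∈ IntermediateField.adjoin K {jqModC K} := by
  rw [iA_evA]; exact aeval_mem_adjoin K _

theorem pA_evA_mem (Q : (↥A)[X]) : pA A (evA A Q) ∈
    IntermediateField.adjoin (IsLocalRing.ResidueField ↥A)
      {jqModC (IsLocalRing.ResidueField ↥A)} := by
  rw [pA_evA]; exact aeval_mem_adjoin _ _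

theorem adjoin_j_le (K₀ : Type*) [Field K₀] (M : ℕ) :
    IntermediateField.adjoin K₀ {jqModC K₀} ≤ modularFunctionFieldFullC K₀ M := by
  rw [IntermediateField.adjoin_simple_le_iff]
  exact jqModC_mem_full K₀ M

variable (M : ℕ) [NeZero M]

/-- `y` is a quotient of honest integral series of the level `M` field, the denominator being a
primitive polynomial in `j`. -/
def IsFrac (y : LaurentSeries K) : Prop :=
  ∃ (w : LaurentSeries ↥A) (S : (↥A)[X]), S.map (IsLocalRing.residue ↥A) ≠ 0 ∧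
    iA A w ∈ modularFunctionFieldFullC K M ∧
    pA A w ∈ modularFunctionFieldFullC (IsLocalRing.ResidueField ↥A) M ∧
    iA A (evA A S) * y = iA A w

omit [NeZero M] in
theorem IsFrac.add {y y' : LaurentSeries K} (h : IsFrac A M y) (h' : IsFrac A M y') :
    IsFrac A M (y + y') := by
  obtain ⟨w, S, hS, hw, hwr, e⟩ := h
  obtain ⟨w', S', hS', hw', hwr', e'⟩ := h'
  refine ⟨w * evA A S' + w' * evA A S, S * S', ?_, ?_, ?_, ?_⟩
  · rw [Polynomial.map_mul]; exact mul_ne_zero hS hS'
  · rw [map_add, map_mul, map_mul]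
    exact add_mem (mul_mem hw (adjoin_j_le K M (iA_evA_mem A S')))
      (mul_mem hw' (adjoin_j_le K M (iA_evA_mem A S)))
  · rw [map_add, map_mul, map_mul]
    exact add_mem (mul_mem hwr (adjoin_j_le _ M (pA_evA_mem A S')))
      (mul_mem hwr' (adjoin_j_le _ M (pA_evA_mem A S)))
  · rw [map_mul, map_mul, map_add, map_mul, map_mul, ← e, ← e']; ring

omit [NeZero M] in
theorem IsFrac.zero : IsFrac A M (0 : LaurentSeries K) :=
  ⟨0, 1, by simp, by simp, by simp, by simp⟩

omit [NeZero M] in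
variable {A M} in
theorem GaussBasis.isFrac {n : ℕ} {z : Fin n → LaurentSeries ↥A} (hz : GaussBasis A M n z)
    (y : ↥(gRing A)) (hy : (y : LaurentSeries K) ∈ modularFunctionFieldFullC K M) :
    IsFrac A M (y : LaurentSeries K) := by
  classical
  obtain ⟨c, hcE, hyc⟩ := hz.span_int y hy
  rw [hyc]
  refine Finset.sum_induction _ (IsFrac A M) (fun _ _ => IsFrac.add A M) (IsFrac.zero A M) ?_
  intro i _
  obtain ⟨R, S, hS, e⟩ := ratJ_frac A (c i) (hcE i)
  refine ⟨evA A R * z i, S, hS, ?_, ?_, ?_⟩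
  · rw [map_mul]; exact mul_mem (adjoin_j_le K M (iA_evA_mem A R)) (hz.mem i)
  · rw [map_mul]; exact mul_mem (adjoin_j_le _ M (pA_evA_mem A R)) (hz.mem_res i)
  · rw [map_mul, ← e]; ring

omit [NeZero M] in
theorem IsFrac.gRes_eq {y : ↥(gRing A)} {w : LaurentSeries ↥A} {S : (↥A)[X]}
    (hS : S.map (IsLocalRing.residue ↥A) ≠ 0)
    (e : iA A (evA A S) * (y : LaurentSeries K) = iA A w) :
    gRes A y = pA A w / pA A (evA A S) :=
  Fermat.Agent.GAL.Gauss.gRes_eq A y (pA_evA_ne_zero A S hS) e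

/-- (T2) the residue of a Gauss integral element of the level `M` field over `K` lies in the
level `M` field over `k`. -/
theorem gRes_mem (hM : ((M : ℕ) : IsLocalRing.ResidueField ↥A) ≠ 0) (y : ↥(gRing A))
    (hy : (y : LaurentSeries K) ∈ modularFunctionFieldFullC K M) :
    gRes A y ∈ modularFunctionFieldFullC (IsLocalRing.ResidueField ↥A) M := by
  obtain ⟨n, z, -, hz, -, -⟩ := exists_gaussBasis A M hM
  obtain ⟨w, S, hS, -, hwr, e⟩ := hz.isFrac y hy
  rw [IsFrac.gRes_eq A hS e]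
  exact div_mem hwr (adjoin_j_le _ M (pA_evA_mem A S))

/-- (T1) every nonzero element of the level `M` field is a constant times a Gauss unit. -/
theorem normalise (hM : ((M : ℕ) : IsLocalRing.ResidueField ↥A) ≠ 0) (x : LaurentSeries K)
    (hx : x ∈ modularFunctionFieldFullC K M) (hx0 : x ≠ 0) :
    ∃ (a : K) (u : ↥(gRing A)), a ≠ 0 ∧ (u : LaurentSeries K) ∈ modularFunctionFieldFullC K M ∧
      x = HahnSeries.C a * (u : LaurentSeries K) ∧ gRes A u ≠ 0 := by
  classical
  obtain ⟨n, z, -, hz, -, -⟩ := exists_gaussBasis A M hM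
  obtain ⟨d, hdE, hxd⟩ := hz.span x hx
  have hd0 : d ≠ 0 := by
    rintro rfl
    apply hx0
    rw [hxd]; simp
  obtain ⟨i₀, h0, hdiv⟩ := Fermat.Agent.S28.D1a_pivot (gRing A)
    (IntermediateField.adjoin K {jqModC K}).toSubfield (fun c hc => ratJ_val A c hc) d hdE hd0
  let c : Fin n → ↥(gRing A) := fun i => ⟨d i / d i₀, hdiv i⟩
  have hcE : ∀ i, (c i : LaurentSeries K) ∈ IntermediateField.adjoin K {jqModC K} :=
    fun i => div_mem (hdE i) (hdE i₀)
  let u₀ : ↥(gRing A) := ∑ i, c i * ⟨iA A (z i), iA_mem_gRing A _⟩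
  have hu₀ : (u₀ : LaurentSeries K) = ∑ i, d i / d i₀ * iA A (z i) := by
    simp only [u₀, c, AddSubmonoidClass.coe_finsetSum, MulMemClass.coe_mul]
  have hu₀x : (u₀ : LaurentSeries K) = x / d i₀ := by
    rw [hu₀, hxd, Finset.sum_div]
    exact Finset.sum_congr rfl fun i _ => by ring
  have hres : gRes A u₀ ≠ 0 := by
    intro h
    have h1 : ∑ i, gRes A (c i) * pA A (z i) = 0 := by
      rw [← h]
      simp only [u₀, map_sum, map_mul, gRes_iA]
    have h2 := hz.indep_res (fun i => gRes A (c i)) (fun i => ratJ_res A (c i) (hcE i)) h1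
    have h3 : gRes A (c i₀) = 0 := congrFun h2 i₀
    have h4 : c i₀ = 1 := Subtype.ext (div_self h0)
    rw [h4, map_one] at h3
    exact one_ne_zero h3
  obtain ⟨a, u', ha, hdu, hu', -⟩ := ratJ_normalise A (d i₀) (hdE i₀) h0
  have hu'E : (u' : LaurentSeries K) ∈ IntermediateField.adjoin K {jqModC K} := by
    have hCa : (HahnSeries.C a : LaurentSeries K) ≠ 0 := by rw [Ne, map_eq_zero]; exact ha
    have : (u' : LaurentSeries K) = (HahnSeries.C a)⁻¹ * d i₀ := by
      rw [hdu, ← mul_assoc, inv_mul_cancel₀ hCa, one_mul]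
    rw [this, ← algebraMap_eq_C]
    exact mul_mem (inv_mem (IntermediateField.algebraMap_mem _ _)) (hdE i₀)
  refine ⟨a, u' * u₀, ha, ?_, ?_, ?_⟩
  · rw [MulMemClass.coe_mul, hu₀x]
    exact mul_mem (adjoin_j_le K M hu'E) (div_mem hx (adjoin_j_le K M (hdE i₀)))
  · rw [MulMemClass.coe_mul, hu₀x, ← mul_assoc, ← hdu, mul_div_cancel₀ _ h0]
  · rw [map_mul]; exact mul_ne_zero hu' hres

/-- (NORMALISE) every nonzero element of the level `M` field is `c * P / Q` with `c` a nonzero
constant and `P`, `Q` honest `A`-integral series of the field with nonzero reduction. -/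
theorem normalise_frac (hM : ((M : ℕ) : IsLocalRing.ResidueField ↥A) ≠ 0) (x : LaurentSeries K)
    (hx : x ∈ modularFunctionFieldFullC K M) (hx0 : x ≠ 0) :
    ∃ (c : K) (P Q : LaurentSeries ↥A), c ≠ 0 ∧
      iA A P ∈ modularFunctionFieldFullC K M ∧ iA A Q ∈ modularFunctionFieldFullC K M ∧
      pA A P ≠ 0 ∧ pA A Q ≠ 0 ∧
      pA A P ∈ modularFunctionFieldFullC (IsLocalRing.ResidueField ↥A) M ∧
      pA A Q ∈ modularFunctionFieldFullC (IsLocalRing.ResidueField ↥A) M ∧
      iA A Q * x = HahnSeries.C c * iA A P := by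
  obtain ⟨a, u, ha, huF, hxu, hu⟩ := normalise A M hM x hx hx0
  obtain ⟨n, z, -, hz, -, -⟩ := exists_gaussBasis A M hM
  obtain ⟨w, S, hS, hw, hwr, e⟩ := hz.isFrac u huF
  have hSne := pA_evA_ne_zero A S hS
  refine ⟨a, w, evA A S, ha, hw, adjoin_j_le K M (iA_evA_mem A S), ?_, hSne, hwr,
    adjoin_j_le _ M (pA_evA_mem A S), ?_⟩
  · intro h
    apply hu
    rw [IsFrac.gRes_eq A hS e, h, zero_div]
  · rw [hxu, ← e]; ring

/-- (T3) the Gauss valuation ring of the level `M` field. -/
def OFK (hM : ((M : ℕ) : IsLocalRing.ResidueField ↥A) ≠ 0) :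
    ValuationSubring ↥(modularFunctionFieldFullC K M) where
  toSubring := (gRing A).comap (algebraMap ↥(modularFunctionFieldFullC K M) (LaurentSeries K))
  mem_or_inv_mem' x := by
    by_cases hx0 : x = 0
    · subst hx0
      exact Or.inl (Subring.zero_mem _)
    have hx0' : (x : LaurentSeries K) ≠ 0 := fun h => hx0 (Subtype.ext h)
    obtain ⟨a, u, ha, -, hxu, hu⟩ := normalise A M hM x x.2 hx0'
    rcases A.mem_or_inv_mem a with h | h
    · left
      show (x : LaurentSeries K) ∈ gRing A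
      rw [hxu]
      exact (C_mul_unit_mem_iff A a u hu).mpr h
    · right
      show algebraMap ↥(modularFunctionFieldFullC K M) (LaurentSeries K) x⁻¹ ∈ gRing A
      rw [map_inv₀]
      show (x : LaurentSeries K)⁻¹ ∈ gRing A
      rw [hxu, mul_inv, ← map_inv₀]
      exact (gRing A).mul_mem ((C_mem_gRing_iff A _).mpr h)
        (inv_mem_gRing_of_gRes_ne_zero A u hu)

theorem mem_OFK_iff (hM : ((M : ℕ) : IsLocalRing.ResidueField ↥A) ≠ 0)
    (x : ↥(modularFunctionFieldFullC K M)) :
    x ∈ OFK A M hM ↔ (x : LaurentSeries K) ∈ gRing A := Iff.rfl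

/-- the residue map of `OFK`, with values in the level `M` field over the residue field. -/
def resOFK (hM : ((M : ℕ) : IsLocalRing.ResidueField ↥A) ≠ 0) :
    ↥(OFK A M hM) →+* ↥(modularFunctionFieldFullC (IsLocalRing.ResidueField ↥A) M) :=
  ((gRes A).comp
    (((algebraMap ↥(modularFunctionFieldFullC K M) (LaurentSeries K)).comp
      (OFK A M hM).subtype).codRestrict (gRing A) (fun x => x.2))).codRestrict
    (modularFunctionFieldFullC (IsLocalRing.ResidueField ↥A) M).toSubring
    (fun x => gRes_mem A M hM _ x.1.2)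

theorem coe_resOFK (hM : ((M : ℕ) : IsLocalRing.ResidueField ↥A) ≠ 0) (x : ↥(OFK A M hM)) :
    ((resOFK A M hM x : ↥(modularFunctionFieldFullC (IsLocalRing.ResidueField ↥A) M)) :
      LaurentSeries (IsLocalRing.ResidueField ↥A)) =
      gRes A ⟨((x : ↥(modularFunctionFieldFullC K M)) : LaurentSeries K), x.2⟩ := rfl

/-- lifting elements of `k(j)`. -/
theorem ratJ_lift (d : LaurentSeries (IsLocalRing.ResidueField ↥A))
    (hd : d ∈ IntermediateField.adjoin (IsLocalRing.ResidueField ↥A)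
      {jqModC (IsLocalRing.ResidueField ↥A)}) :
    ∃ c : ↥(gRing A), (c : LaurentSeries K) ∈ IntermediateField.adjoin K {jqModC K} ∧
      gRes A c = d := by
  obtain ⟨r, s, hrs⟩ := (IntermediateField.mem_adjoin_simple_iff _ _).mp hd
  by_cases hs : s = 0
  · subst hs
    rw [map_zero, div_zero] at hrs
    exact ⟨0, zero_mem _, by rw [map_zero, hrs]⟩
  obtain ⟨R, rfl⟩ := Polynomial.map_surjective _ IsLocalRing.residue_surjective r
  obtain ⟨S, rfl⟩ := Polynomial.map_surjective _ IsLocalRing.residue_surjective s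
  have hSne := pA_evA_ne_zero A S hs
  have hSi := iA_ne_zero_of_pA_ne_zero A hSne
  have hmem : iA A (evA A R) / iA A (evA A S) ∈ gRing A :=
    (mem_gRing_iff A).mpr ⟨evA A R, evA A S, hSne, by field_simp⟩
  refine ⟨⟨_, hmem⟩, div_mem (iA_evA_mem A R) (iA_evA_mem A S), ?_⟩
  rw [gRes_eq A _ hSne (z := evA A R) (by
      show iA A (evA A S) * (iA A (evA A R) / iA A (evA A S)) = _
      field_simp), pA_evA, pA_evA, hrs]

/-- (T4) the residue map is onto the level `M` field over the residue field. -/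
theorem gRes_surjective (hM : ((M : ℕ) : IsLocalRing.ResidueField ↥A) ≠ 0)
    (x : LaurentSeries (IsLocalRing.ResidueField ↥A))
    (hx : x ∈ modularFunctionFieldFullC (IsLocalRing.ResidueField ↥A) M) :
    ∃ y : ↥(gRing A), (y : LaurentSeries K) ∈ modularFunctionFieldFullC K M ∧ gRes A y = x := by
  classical
  obtain ⟨n, z, -, hz, -, -⟩ := exists_gaussBasis A M hM
  obtain ⟨d, hdE, hxd⟩ := hz.span_res x hx
  choose c hcE hcd using fun i => ratJ_lift A (d i) (hdE i)
  refine ⟨∑ i, c i * ⟨iA A (z i), iA_mem_gRing A _⟩, ?_, ?_⟩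
  · simp only [AddSubmonoidClass.coe_finsetSum, MulMemClass.coe_mul]
    exact sum_mem fun i _ => mul_mem (adjoin_j_le K M (hcE i)) (hz.mem i)
  · simp only [map_sum, map_mul, gRes_iA, hcd]
    exact hxd.symm

theorem resOFK_surjective (hM : ((M : ℕ) : IsLocalRing.ResidueField ↥A) ≠ 0) :
    Function.Surjective (resOFK A M hM) := by
  intro x
  obtain ⟨y, hyF, hy⟩ := gRes_surjective A M hM x x.2
  exact ⟨⟨⟨y, hyF⟩, y.2⟩, Subtype.ext hy⟩

theorem resOFK_eq_zero_iff (hM : ((M : ℕ) : IsLocalRing.ResidueField ↥A) ≠ 0)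
    (x : ↥(OFK A M hM)) : resOFK A M hM x = 0 ↔ x ∈ IsLocalRing.maximalIdeal ↥(OFK A M hM) := by
  rw [IsLocalRing.mem_maximalIdeal, mem_nonunits_iff]
  constructor
  · intro h hu
    have := hu.map (resOFK A M hM)
    rw [h] at this
    exact not_isUnit_zero this
  · intro h
    by_contra hne
    apply h
    have hne' : gRes A ⟨((x : ↥(modularFunctionFieldFullC K M)) : LaurentSeries K), x.2⟩ ≠ 0 := by
      intro h0
      exact hne (Subtype.ext h0)
    have hinv := inv_mem_gRing_of_gRes_ne_zero A _ hne'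
    have hx0 : (x : ↥(modularFunctionFieldFullC K M)) ≠ 0 := by
      intro h0
      apply hne
      have : x = 0 := Subtype.ext h0
      rw [this, map_zero]
    have hmem : (x : ↥(modularFunctionFieldFullC K M))⁻¹ ∈ OFK A M hM := by
      rw [mem_OFK_iff]
      simpa using hinv
    exact IsUnit.of_mul_eq_one ⟨_, hmem⟩ (Subtype.ext (mul_inv_cancel₀ hx0))

end Fermat.Agent.GAL.Gauss
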