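import Fermat.Agent.GAL.Gauss.RatJ
import Fermat.Agent.S28.D1bk
import Fermat.Agent.S28.CMain
import Fermat.Agent.S28.B
import Fermat.Agent.S28.A

set_option autoImplicit false

noncomputable section

namespace Fermat.Agent.GAL.Gauss

open ModularCurve Polynomial

/-- S28 block C, unconditionally. -/
theorem statementC : Fermat.Agent.S28.StatementC :=
  Fermat.Agent.S28.statementC_of_statementB
    (Fermat.Agent.S28.statementB Fermat.Agent.S28.statementA)

/-- abstract: independence + spanning over `E` of a family with independent residues. -/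
theorem indep_of_res {M Mk : Type*} [Field M] [Field Mk] (O : Subring M) (ρ : ↥O →+* Mk)
    (E : Subfield M) (hval : ∀ c ∈ E, c ∈ O ∨ c⁻¹ ∈ O)
    (Ek : Subfield Mk) (hEk : ∀ c : ↥O, (c : M) ∈ E → ρ c ∈ Ek)
    (n : ℕ) (z : Fin n → ↥O)
    (hz : ∀ c : Fin n → Mk, (∀ i, c i ∈ Ek) → ∑ i, c i * ρ (z i) = 0 → c = 0)
    (c : Fin n → M) (hc : ∀ i, c i ∈ E) (hrel : ∑ i, c i * (z i : M) = 0) : c = 0 := by
  classical
  by_contra hne
  obtain ⟨i₀, h0, hdiv⟩ := Fermat.Agent.S28.D1a_pivot O E hval c hc hne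
  refine Fermat.Agent.S28.D1a_contra O ρ E Ek hEk n z hz (fun i => c i / c i₀)
    (fun i => E.div_mem (hc i) (hc i₀)) hdiv i₀ (div_self h0) 0 (map_zero ρ) ?_
  have : ∑ i, c i / c i₀ * (z i : M) = (∑ i, c i * (z i : M)) / c i₀ := by
    rw [Finset.sum_div]
    refine Finset.sum_congr rfl fun i _ => by ring
  rw [this, hrel, zero_div]
  rfl

theorem span_of_dep {M Mk : Type*} [Field M] [Field Mk] (O : Subring M) (ρ : ↥O →+* Mk)
    (E : Subfield M) (hval : ∀ c ∈ E, c ∈ O ∨ c⁻¹ ∈ O)
    (Ek : Subfield Mk) (hEk : ∀ c : ↥O, (c : M) ∈ E → ρ c ∈ Ek)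
    (L : Set M) (n : ℕ) (z : Fin n → ↥O)
    (hspan : ∀ (w : Fin (n + 1) → M), (∀ i, w i ∈ L) →
      ∃ c : Fin (n + 1) → M, (∀ i, c i ∈ E) ∧ c ≠ 0 ∧ ∑ i, c i * w i = 0)
    (hzL : ∀ i, (z i : M) ∈ L)
    (hz : ∀ c : Fin n → Mk, (∀ i, c i ∈ Ek) → ∑ i, c i * ρ (z i) = 0 → c = 0)
    (y : M) (hy : y ∈ L) :
    ∃ d : Fin n → M, (∀ i, d i ∈ E) ∧ y = ∑ i, d i * (z i : M) := by
  classical
  have hind := indep_of_res O ρ E hval Ek hEk n z hz
  obtain ⟨c, hcE, hc0, hrel⟩ := hspan (Fin.cons y fun i => (z i : M)) (by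
    intro i
    refine Fin.cases ?_ (fun j => ?_) i
    · simpa using hy
    · simpa using hzL j)
  rw [Fin.sum_univ_succ] at hrel
  simp only [Fin.cons_zero, Fin.cons_succ] at hrel
  have hc00 : c 0 ≠ 0 := by
    intro h0
    rw [h0, zero_mul, zero_add] at hrel
    have := hind (fun i => c i.succ) (fun i => hcE _) hrel
    apply hc0
    funext i
    refine Fin.cases ?_ (fun j => ?_) i
    · exact h0
    · exact congrFun this j
  refine ⟨fun i => -(c i.succ) / c 0, fun i => E.div_mem (E.neg_mem (hcE _)) (hcE _), ?_⟩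
  have : ∑ i, -(c i.succ) / c 0 * (z i : M) = -(∑ i, c i.succ * (z i : M)) / c 0 := by
    rw [← Finset.sum_neg_distrib, Finset.sum_div]
    refine Finset.sum_congr rfl fun i _ => by ring
  rw [this]
  field_simp
  linear_combination hrel

/-- any `n + 1` elements of the level `M` field are dependent over `K₀(j)`. -/
theorem dep (K₀ : Type*) [Field K₀] (M : ℕ) (n : ℕ) (hn0 : 0 < n)
    (hn : Module.finrank ↥(IntermediateField.adjoin K₀ {jqModC K₀})
      ↥(IntermediateField.adjoin ↥(IntermediateField.adjoin K₀ {jqModC K₀})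
        (divisorExpansionsC K₀ M)) = n)
    (w : Fin (n + 1) → LaurentSeries K₀) (hw : ∀ i, w i ∈ modularFunctionFieldFullC K₀ M) :
    ∃ c : Fin (n + 1) → LaurentSeries K₀,
      (∀ i, c i ∈ IntermediateField.adjoin K₀ {jqModC K₀}) ∧ c ≠ 0 ∧ ∑ i, c i * w i = 0 := by
  classical
  set E0 := IntermediateField.adjoin K₀ {jqModC K₀} with hE0
  set Fb := IntermediateField.adjoin ↥E0 (divisorExpansionsC K₀ M) with hFb
  have hle : modularFunctionFieldFullC K₀ M ≤ Fb.restrictScalars K₀ := by
    rw [modularFunctionFieldFullC, IntermediateField.adjoin_le_iff]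
    intro x hx
    exact IntermediateField.subset_adjoin (↥E0) (divisorExpansionsC K₀ M) hx
  have hw' : ∀ i, w i ∈ Fb := fun i => hle (hw i)
  haveI : Module.Free ↥E0 ↥Fb := Module.Free.of_divisionRing _ _
  have : Module.Finite ↥E0 ↥Fb := Module.finite_of_finrank_pos (by rw [hn]; exact hn0)
  have hdep : ¬ LinearIndependent ↥E0 (fun i => (⟨w i, hw' i⟩ : ↥Fb)) := by
    intro hli
    have := hli.fintype_card_le_finrank
    rw [hn, Fintype.card_fin] at this
    omega
  rw [Fintype.not_linearIndependent_iff] at hdep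
  obtain ⟨g, hg, i0, hi0⟩ := hdep
  refine ⟨fun i => (g i : LaurentSeries K₀), fun i => (g i).2, ?_, ?_⟩
  · intro h
    apply hi0
    have := congrFun h i0
    exact Subtype.ext this
  · have := congrArg (fun x : ↥Fb => (x : LaurentSeries K₀)) hg
    simpa [Algebra.smul_def, IntermediateField.coe_sum] using this

variable {K : Type} [Field K] (A : ValuationSubring K) (M : ℕ) [NeZero M]

omit [NeZero M] in
theorem lift_monomial (x : LaurentSeries (IsLocalRing.ResidueField ↥A))
    (hx : x ∈ Submonoid.closure (divisorExpansionsC (IsLocalRing.ResidueField ↥A) M)) :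
    ∃ z : LaurentSeries ↥A, pA A z = x ∧ iA A z ∈ modularFunctionFieldFullC K M ∧
      x ∈ modularFunctionFieldFullC (IsLocalRing.ResidueField ↥A) M := by
  induction hx using Submonoid.closure_induction with
  | mem x hx =>
    obtain ⟨d, hd, hdN, rfl⟩ := hx
    refine ⟨qExpand ↥A d (jqModC ↥A), ?_, ?_, ?_⟩
    · rw [pA_qExpand, pA_jqModC]
    · rw [iA_qExpand, iA_jqModC]
      exact jqModCd_mem_full K M hdN
    · exact jqModCd_mem_full _ M hdN
  | one => exact ⟨1, map_one _, by rw [map_one]; exact one_mem _, one_mem _⟩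
  | mul x y _ _ hx hy =>
    obtain ⟨z, rfl, hz, hz2⟩ := hx
    obtain ⟨z', rfl, hz', hz2'⟩ := hy
    exact ⟨z * z', map_mul _ _ _, by rw [map_mul]; exact mul_mem hz hz', mul_mem hz2 hz2'⟩

/-- A family of honest `A`-integral series in the level `M` field which is a basis over `K(j)`,
whose reductions are a basis over `k(j)`, and which is a basis of the Gauss valuation ring over
the Gauss valuation ring of `K(j)`. -/
structure GaussBasis (n : ℕ) (z : Fin n → LaurentSeries ↥A) : Prop where
  mem : ∀ i, iA A (z i) ∈ modularFunctionFieldFullC K M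
  mem_res : ∀ i, pA A (z i) ∈ modularFunctionFieldFullC (IsLocalRing.ResidueField ↥A) M
  indep_res : ∀ c : Fin n → LaurentSeries (IsLocalRing.ResidueField ↥A),
    (∀ i, c i ∈ IntermediateField.adjoin (IsLocalRing.ResidueField ↥A)
      {jqModC (IsLocalRing.ResidueField ↥A)}) → ∑ i, c i * pA A (z i) = 0 → c = 0
  indep : ∀ c : Fin n → LaurentSeries K,
    (∀ i, c i ∈ IntermediateField.adjoin K {jqModC K}) → ∑ i, c i * iA A (z i) = 0 → c = 0
  span : ∀ x ∈ modularFunctionFieldFullC K M, ∃ d : Fin n → LaurentSeries K,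
    (∀ i, d i ∈ IntermediateField.adjoin K {jqModC K}) ∧ x = ∑ i, d i * iA A (z i)
  span_int : ∀ y : ↥(gRing A), (y : LaurentSeries K) ∈ modularFunctionFieldFullC K M →
    ∃ c : Fin n → ↥(gRing A), (∀ i, (c i : LaurentSeries K) ∈ IntermediateField.adjoin K {jqModC K}) ∧
      (y : LaurentSeries K) = ∑ i, (c i : LaurentSeries K) * iA A (z i)
  span_res : ∀ x ∈ modularFunctionFieldFullC (IsLocalRing.ResidueField ↥A) M,
    ∃ d : Fin n → LaurentSeries (IsLocalRing.ResidueField ↥A),
      (∀ i, d i ∈ IntermediateField.adjoin (IsLocalRing.ResidueField ↥A)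
        {jqModC (IsLocalRing.ResidueField ↥A)}) ∧ x = ∑ i, d i * pA A (z i)

omit [NeZero M] in
theorem natCast_ne_zero_of_residue (hM : ((M : ℕ) : IsLocalRing.ResidueField ↥A) ≠ 0) :
    ((M : ℕ) : K) ≠ 0 := by
  intro h
  apply hM
  have h1 : ((M : ℕ) : ↥A) = 0 := Subtype.ext (by simpa using h)
  rw [← map_natCast (IsLocalRing.residue ↥A), h1, map_zero]

theorem exists_gaussBasis (hM : ((M : ℕ) : IsLocalRing.ResidueField ↥A) ≠ 0) :
    ∃ (n : ℕ) (z : Fin n → LaurentSeries ↥A), 0 < n ∧ GaussBasis A M n z ∧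
      Module.finrank ↥(IntermediateField.adjoin K {jqModC K})
        ↥(IntermediateField.adjoin ↥(IntermediateField.adjoin K {jqModC K})
          (divisorExpansionsC K M)) = n ∧
      Module.finrank ↥(IntermediateField.adjoin (IsLocalRing.ResidueField ↥A)
          {jqModC (IsLocalRing.ResidueField ↥A)})
        ↥(IntermediateField.adjoin ↥(IntermediateField.adjoin (IsLocalRing.ResidueField ↥A)
          {jqModC (IsLocalRing.ResidueField ↥A)})
          (divisorExpansionsC (IsLocalRing.ResidueField ↥A) M)) = n := by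
  classical
  obtain ⟨n, hn0, hn⟩ := statementC M
  have hK := hn K (natCast_ne_zero_of_residue A M hM)
  have hk := hn (IsLocalRing.ResidueField ↥A) hM
  obtain ⟨v, hv, hli⟩ := Fermat.Agent.S28.D1bk_abstract
    (divisorExpansionsC (IsLocalRing.ResidueField ↥A) M) n hn0 hk
  choose z hz1 hz2 hz3 using fun i : Fin n => lift_monomial A M _ (hv i)
  have hind : ∀ c : Fin n → LaurentSeries (IsLocalRing.ResidueField ↥A),
      (∀ i, c i ∈ IntermediateField.adjoin (IsLocalRing.ResidueField ↥A)
        {jqModC (IsLocalRing.ResidueField ↥A)}) → ∑ i, c i * pA A (z i) = 0 → c = 0 := by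
    intro c hc hsum
    rw [Fintype.linearIndependent_iff] at hli
    have := hli (fun i => ⟨c i, hc i⟩) (by
      simp only [Algebra.smul_def]
      rw [← hsum]
      refine Finset.sum_congr rfl fun i _ => ?_
      rw [hz1]
      rfl)
    funext i
    exact congrArg Subtype.val (this i)
  let zO : Fin n → ↥(gRing A) := fun i => ⟨iA A (z i), iA_mem_gRing A _⟩
  have hres : ∀ i, gRes A (zO i) = pA A (z i) := fun i => gRes_iA A (z i)
  have hind' : ∀ c : Fin n → LaurentSeries (IsLocalRing.ResidueField ↥A),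
      (∀ i, c i ∈ (IntermediateField.adjoin (IsLocalRing.ResidueField ↥A)
        {jqModC (IsLocalRing.ResidueField ↥A)}).toSubfield) →
        ∑ i, c i * gRes A (zO i) = 0 → c = 0 := by
    intro c hc hrel
    apply hind c hc
    rw [← hrel]
    exact Finset.sum_congr rfl fun i _ => by rw [hres]
  refine ⟨n, z, hn0, ⟨hz2, fun i => by rw [hz1]; exact hz3 i, hind, ?_, ?_, ?_, ?_⟩, hK, hk⟩
  · exact fun c hc hrel => indep_of_res (gRing A) (gRes A)
      (IntermediateField.adjoin K {jqModC K}).toSubfield (fun c hc => ratJ_val A c hc)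
      (IntermediateField.adjoin (IsLocalRing.ResidueField ↥A)
        {jqModC (IsLocalRing.ResidueField ↥A)}).toSubfield (fun c hc => ratJ_res A c hc)
      n zO hind' c hc hrel
  · exact fun x hx => span_of_dep (gRing A) (gRes A)
      (IntermediateField.adjoin K {jqModC K}).toSubfield (fun c hc => ratJ_val A c hc)
      (IntermediateField.adjoin (IsLocalRing.ResidueField ↥A)
        {jqModC (IsLocalRing.ResidueField ↥A)}).toSubfield (fun c hc => ratJ_res A c hc)
      (modularFunctionFieldFullC K M : Set (LaurentSeries K)) n zO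
      (fun w hw => dep K M n hn0 hK w hw) hz2 hind' x hx
  · exact fun y hy => Fermat.Agent.S28.D1a (gRing A) (gRes A)
      (fun x hx => inv_mem_gRing_of_gRes_ne_zero A x hx)
      (IntermediateField.adjoin K {jqModC K}).toSubfield (fun c hc => ratJ_val A c hc)
      (IntermediateField.adjoin (IsLocalRing.ResidueField ↥A)
        {jqModC (IsLocalRing.ResidueField ↥A)}).toSubfield (fun c hc => ratJ_res A c hc)
      (modularFunctionFieldFullC K M : Set (LaurentSeries K)) n zO
      (fun w hw => dep K M n hn0 hK w hw) hz2 hind' y hy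
  · intro x hx
    obtain ⟨c, hcE, hc0, hrel⟩ := dep (IsLocalRing.ResidueField ↥A) M n hn0 hk
      (Fin.cons x fun i => pA A (z i)) (by
        intro i
        refine Fin.cases ?_ (fun j => ?_) i
        · simpa using hx
        · simpa [hz1] using hz3 j)
    rw [Fin.sum_univ_succ] at hrel
    simp only [Fin.cons_zero, Fin.cons_succ] at hrel
    have hc00 : c 0 ≠ 0 := by
      intro h0
      rw [h0, zero_mul, zero_add] at hrel
      have := hind (fun i => c i.succ) (fun i => hcE _) hrel
      apply hc0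
      funext i
      refine Fin.cases ?_ (fun j => ?_) i
      · exact h0
      · exact congrFun this j
    refine ⟨fun i => -(c i.succ) / c 0, fun i => div_mem (neg_mem (hcE _)) (hcE _), ?_⟩
    have : ∑ i, -(c i.succ) / c 0 * pA A (z i) = -(∑ i, c i.succ * pA A (z i)) / c 0 := by
      rw [← Finset.sum_neg_distrib, Finset.sum_div]
      refine Finset.sum_congr rfl fun i _ => by ring
    rw [this]
    field_simp
    linear_combination hrel

end Fermat.Agent.GAL.Gauss
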