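import Fermat.Agent.GAL.Gauss.Ring
import Fermat.Agent.S28.D1c

set_option autoImplicit false

noncomputable section

namespace Fermat.Agent.GAL.Gauss

open ModularCurve Polynomial

variable {K : Type*} [Field K] (A : ValuationSubring K)

/-- pivot normalisation of a nonzero polynomial. -/
theorem exists_normalise (P : K[X]) (hP : P ≠ 0) :
    ∃ (c : K) (Q : (↥A)[X]), c ≠ 0 ∧ Q.map (IsLocalRing.residue ↥A) ≠ 0 ∧
      P = C c * Q.map A.subtype := by
  classical
  have hs : ∃ i ∈ P.support, P.coeff i ≠ 0 := by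
    obtain ⟨i, hi⟩ := Polynomial.support_nonempty.mpr hP
    exact ⟨i, hi, Polynomial.mem_support_iff.mp hi⟩
  obtain ⟨i₀, -, h0, hdiv⟩ := Fermat.Agent.S28.D1a_pivot_finset A.toSubring (⊤ : Subfield K)
    (fun c _ => A.mem_or_inv_mem c) (fun i => P.coeff i) (fun _ => Subfield.mem_top _)
    P.support hs
  have hall : ∀ i, P.coeff i / P.coeff i₀ ∈ A := by
    intro i
    by_cases hi : i ∈ P.support
    · exact hdiv i hi
    · rw [Polynomial.notMem_support_iff.mp hi, zero_div]; exact A.zero_mem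
  have hl : C (P.coeff i₀)⁻¹ * P ∈ lifts A.subtype := by
    rw [lifts_iff_coeff_lifts]
    intro n
    refine ⟨⟨_, hall n⟩, ?_⟩
    rw [coeff_C_mul]
    show P.coeff n / P.coeff i₀ = _
    rw [div_eq_mul_inv, mul_comm]
  obtain ⟨Q, hQ⟩ := (mem_lifts _).mp hl
  refine ⟨P.coeff i₀, Q, h0, ?_, ?_⟩
  · intro h
    have h1 := congrArg (fun R => R.coeff i₀) h
    simp only [coeff_map, coeff_zero] at h1
    have h2 : Q.coeff i₀ = 1 := by
      apply Subtype.ext
      have := congrArg (fun R => R.coeff i₀) hQ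
      simp only [coeff_map, coeff_C_mul] at this
      rw [inv_mul_cancel₀ h0] at this
      exact this
    rw [h2, map_one] at h1
    exact one_ne_zero h1
  · rw [hQ, ← mul_assoc, ← C_mul, mul_inv_cancel₀ h0, C_1, one_mul]

/-- evaluation at `j` of polynomials over `A`. -/
def evA : (↥A)[X] →+* LaurentSeries ↥A := eval₂RingHom HahnSeries.C (jqModC ↥A)

theorem iA_evA (Q : (↥A)[X]) : iA A (evA A Q) = aeval (jqModC K) (Q.map A.subtype) := by
  have h1 := Polynomial.hom_eval₂ Q (HahnSeries.C : ↥A →+* LaurentSeries ↥A) (iA A) (jqModC ↥A)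
  have h2 : (iA A).comp (HahnSeries.C : ↥A →+* LaurentSeries ↥A) =
      (algebraMap K (LaurentSeries K)).comp A.subtype := by
    ext1 r
    simp only [RingHom.comp_apply]
    rw [algebraMap_laurentSeries_eq_single, iA, HahnSeries.C_apply, coeffMap_single]
  rw [h2, iA_jqModC] at h1
  rw [aeval_def, eval₂_map]
  exact h1

theorem pA_evA (Q : (↥A)[X]) :
    pA A (evA A Q) = aeval (jqModC (IsLocalRing.ResidueField ↥A)) (Q.map (IsLocalRing.residue ↥A)) := by
  have h1 := Polynomial.hom_eval₂ Q (HahnSeries.C : ↥A →+* LaurentSeries ↥A) (pA A) (jqModC ↥A)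
  have h2 : (pA A).comp (HahnSeries.C : ↥A →+* LaurentSeries ↥A) =
      (algebraMap (IsLocalRing.ResidueField ↥A) (LaurentSeries (IsLocalRing.ResidueField ↥A))).comp (IsLocalRing.residue ↥A) := by
    ext1 r
    simp only [RingHom.comp_apply]
    rw [algebraMap_laurentSeries_eq_single, pA, HahnSeries.C_apply, coeffMap_single]
  rw [h2, pA_jqModC] at h1
  rw [aeval_def, eval₂_map]
  exact h1

theorem pA_evA_ne_zero (Q : (↥A)[X]) (hQ : Q.map (IsLocalRing.residue ↥A) ≠ 0) :
    pA A (evA A Q) ≠ 0 := by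
  rw [pA_evA]
  intro h
  exact hQ ((transcendental_iff.mp
    (Fermat.Agent.S28.transcendental_jqModC (IsLocalRing.ResidueField ↥A))) _ h)

theorem aeval_mem_adjoin (k : Type*) [Field k] (P : k[X]) :
    aeval (jqModC k) P ∈ IntermediateField.adjoin k {jqModC k} := by
  rw [IntermediateField.mem_adjoin_simple_iff]
  exact ⟨P, 1, by simp⟩

theorem algebraMap_eq_C (c : K) : algebraMap K (LaurentSeries K) c = HahnSeries.C c := by
  rw [algebraMap_laurentSeries_eq_single, HahnSeries.C_apply]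

/-- every nonzero element of `K(j)` is a constant times a Gauss unit whose residue is in `k(j)`. -/
theorem ratJ_normalise (c : LaurentSeries K) (hc : c ∈ IntermediateField.adjoin K {jqModC K})
    (h0 : c ≠ 0) :
    ∃ (a : K) (u : ↥(gRing A)), a ≠ 0 ∧ c = HahnSeries.C a * (u : LaurentSeries K) ∧
      gRes A u ≠ 0 ∧ gRes A u ∈ IntermediateField.adjoin (IsLocalRing.ResidueField ↥A) {jqModC (IsLocalRing.ResidueField ↥A)} := by
  obtain ⟨r, s, hrs⟩ := (IntermediateField.mem_adjoin_simple_iff K _).mp hc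
  have hr : r ≠ 0 := by
    rintro rfl
    rw [map_zero, zero_div] at hrs
    exact h0 hrs
  have hs : s ≠ 0 := by
    rintro rfl
    rw [map_zero, div_zero] at hrs
    exact h0 hrs
  obtain ⟨a, R, ha, hR, hrR⟩ := exists_normalise A r hr
  obtain ⟨b, S, hb, hS, hsS⟩ := exists_normalise A s hs
  have hSne := pA_evA_ne_zero A S hS
  have hRne := pA_evA_ne_zero A R hR
  have hSi := iA_ne_zero_of_pA_ne_zero A hSne
  have hmem : iA A (evA A R) / iA A (evA A S) ∈ gRing A :=
    (mem_gRing_iff A).mpr ⟨evA A R, evA A S, hSne, by field_simp⟩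
  have hres : gRes A ⟨_, hmem⟩ = pA A (evA A R) / pA A (evA A S) :=
    gRes_eq A _ hSne (by
      show iA A (evA A S) * (iA A (evA A R) / iA A (evA A S)) = _
      field_simp)
  refine ⟨a / b, ⟨_, hmem⟩, div_ne_zero ha hb, ?_, ?_, ?_⟩
  · have hCb : (HahnSeries.C b : LaurentSeries K) ≠ 0 := by
      rw [Ne, map_eq_zero]; exact hb
    rw [hrs, hrR, hsS, map_mul, map_mul, aeval_C, aeval_C, algebraMap_eq_C, algebraMap_eq_C,
      ← iA_evA, ← iA_evA, map_div₀]
    field_simp
  · rw [hres]; exact div_ne_zero hRne hSne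
  · rw [hres, pA_evA, pA_evA]
    exact div_mem (aeval_mem_adjoin (IsLocalRing.ResidueField ↥A) _) (aeval_mem_adjoin (IsLocalRing.ResidueField ↥A) _)

theorem C_mul_unit_mem_iff (a : K) (u : ↥(gRing A)) (hu : gRes A u ≠ 0) :
    HahnSeries.C a * (u : LaurentSeries K) ∈ gRing A ↔ a ∈ A := by
  constructor
  · intro h
    rw [← C_mem_gRing_iff]
    have hinv := inv_mem_gRing_of_gRes_ne_zero A u hu
    have hu0 : (u : LaurentSeries K) ≠ 0 := by
      intro h0
      apply hu
      have : u = 0 := Subtype.ext h0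
      rw [this, map_zero]
    have := (gRing A).mul_mem h hinv
    rwa [mul_assoc, mul_inv_cancel₀ hu0, mul_one] at this
  · intro h
    exact (gRing A).mul_mem ((C_mem_gRing_iff A a).mpr h) u.2

theorem ratJ_val (c : LaurentSeries K) (hc : c ∈ IntermediateField.adjoin K {jqModC K}) :
    c ∈ gRing A ∨ c⁻¹ ∈ gRing A := by
  by_cases h0 : c = 0
  · subst h0; exact Or.inl (zero_mem _)
  obtain ⟨a, u, ha, rfl, hu, -⟩ := ratJ_normalise A c hc h0
  rcases A.mem_or_inv_mem a with h | h
  · exact Or.inl ((C_mul_unit_mem_iff A a u hu).mpr h)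
  · right
    rw [mul_inv, ← map_inv₀]
    exact (gRing A).mul_mem ((C_mem_gRing_iff A _).mpr h) (inv_mem_gRing_of_gRes_ne_zero A u hu)

theorem ratJ_res (c : ↥(gRing A))
    (hc : (c : LaurentSeries K) ∈ IntermediateField.adjoin K {jqModC K}) :
    gRes A c ∈ IntermediateField.adjoin (IsLocalRing.ResidueField ↥A) {jqModC (IsLocalRing.ResidueField ↥A)} := by
  by_cases h0 : (c : LaurentSeries K) = 0
  · have : c = 0 := Subtype.ext h0
    rw [this, map_zero]; exact zero_mem _
  obtain ⟨a, u, ha, hcu, hu, hmem⟩ := ratJ_normalise A c hc h0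
  have haA : a ∈ A := (C_mul_unit_mem_iff A a u hu).mp (hcu ▸ c.2)
  have hC : HahnSeries.C a ∈ gRing A := (C_mem_gRing_iff A a).mpr haA
  have : c = ⟨_, hC⟩ * u := Subtype.ext hcu
  rw [this, map_mul, gRes_C A ⟨a, haA⟩ hC, ← algebraMap_eq_C]
  exact mul_mem (IntermediateField.algebraMap_mem _ _) hmem

/-- a polynomial in `j` which is Gauss integral has coefficients in `A`. -/
theorem coeff_mem_of_aeval_mem (P : K[X]) (h : aeval (jqModC K) P ∈ gRing A) (i : ℕ) :
    P.coeff i ∈ A := by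
  by_cases hP : P = 0
  · subst hP; simp [A.zero_mem]
  obtain ⟨a, R, ha, hR, hPR⟩ := exists_normalise A P hP
  have hRne := pA_evA_ne_zero A R hR
  have hu : gRes A ⟨_, iA_mem_gRing A (evA A R)⟩ ≠ 0 := by rw [gRes_iA]; exact hRne
  have haA : a ∈ A := by
    refine (C_mul_unit_mem_iff A a ⟨_, iA_mem_gRing A (evA A R)⟩ hu).mp ?_
    show HahnSeries.C a * iA A (evA A R) ∈ gRing A
    rw [iA_evA, ← algebraMap_eq_C, ← aeval_C (jqModC K) a, ← map_mul, ← hPR]
    exact h
  rw [hPR, coeff_C_mul, coeff_map]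
  exact A.mul_mem _ _ haA (Subtype.mem _)

end Fermat.Agent.GAL.Gauss
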