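import Fermat.Agent.S28.D1a
import Fermat.Agent.S28.D0

set_option autoImplicit false

noncomputable section

namespace Fermat.Agent.GAL.Gauss

open ModularCurve

variable {K : Type*} [Field K] (A : ValuationSubring K)

/-- inclusion `A((q)) → K((q))`. -/
def iA : LaurentSeries ↥A →+* LaurentSeries K := coeffMap A.subtype

/-- reduction `A((q)) → k((q))`, `k` the residue field of `A`. -/
def pA : LaurentSeries ↥A →+* LaurentSeries (IsLocalRing.ResidueField ↥A) :=
  coeffMap (IsLocalRing.residue ↥A)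

theorem iA_coeff (z : LaurentSeries ↥A) (n : ℤ) : (iA A z).coeff n = (z.coeff n : K) := rfl

theorem pA_coeff (z : LaurentSeries ↥A) (n : ℤ) :
    (pA A z).coeff n = IsLocalRing.residue ↥A (z.coeff n) := rfl

theorem iA_injective : Function.Injective (iA A) := by
  intro x y h
  ext n
  have := congrArg (fun s => HahnSeries.coeff s n) h
  simpa [iA] using this

/-- the Gauss valuation ring: quotients `z / g` with `z, g ∈ A((q))`, `g ≢ 0` modulo the
maximal ideal. -/
def gRing : Subring (LaurentSeries K) where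
  carrier := {x | ∃ z g : LaurentSeries ↥A, pA A g ≠ 0 ∧ iA A g * x = iA A z}
  mul_mem' := by
    rintro x y ⟨z, g, hg, h⟩ ⟨z', g', hg', h'⟩
    refine ⟨z * z', g * g', by rw [map_mul]; exact mul_ne_zero hg hg', ?_⟩
    rw [map_mul, map_mul, ← h, ← h']; ring
  one_mem' := ⟨1, 1, by simp, by simp⟩
  add_mem' := by
    rintro x y ⟨z, g, hg, h⟩ ⟨z', g', hg', h'⟩
    refine ⟨z * g' + z' * g, g * g', by rw [map_mul]; exact mul_ne_zero hg hg', ?_⟩
    rw [map_add, map_mul, map_mul, map_mul, ← h, ← h']; ring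
  zero_mem' := ⟨0, 1, by simp, by simp⟩
  neg_mem' := by
    rintro x ⟨z, g, hg, h⟩
    exact ⟨-z, g, hg, by rw [map_neg, ← h]; ring⟩

theorem mem_gRing_iff {x : LaurentSeries K} : x ∈ gRing A ↔
    ∃ z g : LaurentSeries ↥A, pA A g ≠ 0 ∧ iA A g * x = iA A z := Iff.rfl

theorem iA_ne_zero_of_pA_ne_zero {g : LaurentSeries ↥A} (hg : pA A g ≠ 0) :
    iA A g ≠ 0 := by
  intro h
  have : g = 0 := iA_injective A (by rw [h, map_zero])
  exact hg (by rw [this, map_zero])

theorem gRes_wd {x : LaurentSeries K} {z g z' g' : LaurentSeries ↥A}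
    (hg : pA A g ≠ 0) (h : iA A g * x = iA A z)
    (hg' : pA A g' ≠ 0) (h' : iA A g' * x = iA A z') :
    pA A z / pA A g = pA A z' / pA A g' := by
  rw [div_eq_div_iff hg hg', ← map_mul, ← map_mul]
  congr 1
  apply iA_injective A
  rw [map_mul, map_mul, ← h, ← h']; ring

/-- underlying function of the residue map. -/
def gResFun (x : ↥(gRing A)) : LaurentSeries (IsLocalRing.ResidueField ↥A) :=
  pA A x.2.choose / pA A x.2.choose_spec.choose

theorem gResFun_eq (x : ↥(gRing A)) {z g : LaurentSeries ↥A}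
    (hg : pA A g ≠ 0) (h : iA A g * (x : LaurentSeries K) = iA A z) :
    gResFun A x = pA A z / pA A g :=
  gRes_wd A x.2.choose_spec.choose_spec.1 x.2.choose_spec.choose_spec.2 hg h

/-- the residue map of the Gauss valuation ring. -/
def gRes : ↥(gRing A) →+* LaurentSeries (IsLocalRing.ResidueField ↥A) where
  toFun := gResFun A
  map_one' := by
    rw [gResFun_eq A 1 (z := 1) (g := 1) (by simp) (by simp)]; simp
  map_zero' := by
    rw [gResFun_eq A 0 (z := 0) (g := 1) (by simp) (by simp)]; simp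
  map_mul' := by
    rintro ⟨x, z, g, hg, h⟩ ⟨y, z', g', hg', h'⟩
    rw [gResFun_eq A ⟨x, z, g, hg, h⟩ hg h, gResFun_eq A ⟨y, z', g', hg', h'⟩ hg' h',
      gResFun_eq A _ (z := z * z') (g := g * g') (by rw [map_mul]; exact mul_ne_zero hg hg')
        (by
          show iA A (g * g') * (x * y) = _
          rw [map_mul, map_mul, ← h, ← h']; ring)]
    rw [map_mul, map_mul, div_mul_div_comm]
  map_add' := by
    rintro ⟨x, z, g, hg, h⟩ ⟨y, z', g', hg', h'⟩
    rw [gResFun_eq A ⟨x, z, g, hg, h⟩ hg h, gResFun_eq A ⟨y, z', g', hg', h'⟩ hg' h',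
      gResFun_eq A _ (z := z * g' + z' * g) (g := g * g')
        (by rw [map_mul]; exact mul_ne_zero hg hg')
        (by
          show iA A (g * g') * (x + y) = _
          rw [map_add, map_mul, map_mul, map_mul, ← h, ← h']; ring)]
    rw [map_add, map_mul, map_mul, map_mul, div_add_div _ _ hg hg', mul_comm (pA A g) (pA A z')]

theorem gRes_eq (x : ↥(gRing A)) {z g : LaurentSeries ↥A}
    (hg : pA A g ≠ 0) (h : iA A g * (x : LaurentSeries K) = iA A z) :
    gRes A x = pA A z / pA A g := gResFun_eq A x hg h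

theorem iA_mem_gRing (z : LaurentSeries ↥A) : iA A z ∈ gRing A :=
  ⟨z, 1, by simp, by simp⟩

theorem gRes_iA (z : LaurentSeries ↥A) :
    gRes A ⟨iA A z, iA_mem_gRing A z⟩ = pA A z := by
  rw [gRes_eq A _ (z := z) (g := 1) (by simp) (by simp)]; simp

theorem gRes_of_eq_iA (x : ↥(gRing A)) (z : LaurentSeries ↥A) (h : (x : LaurentSeries K) = iA A z) :
    gRes A x = pA A z := by
  have : x = ⟨iA A z, iA_mem_gRing A z⟩ := Subtype.ext h
  rw [this, gRes_iA]

theorem inv_mem_gRing_of_gRes_ne_zero (x : ↥(gRing A)) (hx : gRes A x ≠ 0) :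
    (x : LaurentSeries K)⁻¹ ∈ gRing A := by
  obtain ⟨z, g, hg, h⟩ := (mem_gRing_iff A).mp x.2
  rw [gRes_eq A x hg h] at hx
  have hz : pA A z ≠ 0 := fun h0 => hx (by rw [h0, zero_div])
  have hx0 : (x : LaurentSeries K) ≠ 0 := by
    intro h0
    rw [h0, mul_zero] at h
    exact iA_ne_zero_of_pA_ne_zero A hz h.symm
  refine (mem_gRing_iff A).mpr ⟨g, z, hz, ?_⟩
  rw [← h, mul_assoc, mul_inv_cancel₀ hx0, mul_one]

theorem gRes_inv (x : ↥(gRing A)) (h : (x : LaurentSeries K)⁻¹ ∈ gRing A) :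
    gRes A ⟨_, h⟩ = (gRes A x)⁻¹ := by
  by_cases hx0 : (x : LaurentSeries K) = 0
  · have h1 : x = 0 := Subtype.ext hx0
    have h2 : (⟨(x : LaurentSeries K)⁻¹, h⟩ : ↥(gRing A)) = 0 := Subtype.ext (by simp [hx0])
    rw [h2, h1, map_zero, inv_zero]
  · have h1 : x * ⟨_, h⟩ = 1 := Subtype.ext (by
      show (x : LaurentSeries K) * (x : LaurentSeries K)⁻¹ = 1
      exact mul_inv_cancel₀ hx0)
    have h2 := congrArg (gRes A) h1
    rw [map_mul, map_one] at h2
    exact eq_inv_of_mul_eq_one_right h2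

/-- constants. -/
theorem C_mem_gRing_iff (c : K) : HahnSeries.C c ∈ gRing A ↔ c ∈ A := by
  constructor
  · rintro ⟨z, g, hg, h⟩
    by_contra hc
    have hc0 : c ≠ 0 := fun h0 => hc (h0 ▸ A.zero_mem)
    have hinv : c⁻¹ ∈ A := (A.mem_or_inv_mem c).resolve_left hc
    have hnu : ¬ IsUnit (⟨c⁻¹, hinv⟩ : ↥A) := by
      intro hu
      obtain ⟨u, hu⟩ := hu
      have h1 : ((u⁻¹ : (↥A)ˣ) : ↥A) * ⟨c⁻¹, hinv⟩ = 1 := by rw [← hu]; simp
      have h2 := congrArg (Subtype.val) h1
      simp only [MulMemClass.coe_mul, OneMemClass.coe_one] at h2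
      apply hc
      have : c = (((u⁻¹ : (↥A)ˣ) : ↥A) : K) := by
        field_simp at h2
        exact h2.symm
      rw [this]
      exact Subtype.mem _
    apply hg
    ext n
    have h3 := congrArg (fun s => HahnSeries.coeff s n) h
    simp only [mul_comm (iA A g), HahnSeries.C_mul_eq_smul, HahnSeries.coeff_smul, iA_coeff,
      smul_eq_mul] at h3
    rw [pA_coeff, HahnSeries.coeff_zero, IsLocalRing.residue_eq_zero_iff]
    have h4 : g.coeff n = ⟨c⁻¹, hinv⟩ * z.coeff n := by
      apply Subtype.ext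
      simp only [MulMemClass.coe_mul]
      rw [← h3]
      field_simp
    rw [h4]
    exact Ideal.mul_mem_right _ _ ((IsLocalRing.mem_maximalIdeal _).mpr hnu)
  · intro hc
    have : HahnSeries.C c = iA A (HahnSeries.C (⟨c, hc⟩ : ↥A)) := by
      rw [iA, HahnSeries.C_apply, HahnSeries.C_apply, coeffMap_single]
      rfl
    rw [this]
    exact iA_mem_gRing A _

theorem gRes_C (c : ↥A) (h : HahnSeries.C (c : K) ∈ gRing A) :
    gRes A ⟨_, h⟩ = HahnSeries.C (IsLocalRing.residue ↥A c) := by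
  rw [gRes_of_eq_iA A _ (HahnSeries.C c)]
  · rw [pA, HahnSeries.C_apply, HahnSeries.C_apply, coeffMap_single]
  · show HahnSeries.C (c : K) = _
    rw [iA, HahnSeries.C_apply, HahnSeries.C_apply, coeffMap_single]
    rfl

theorem iA_jqModC : iA A (jqModC ↥A) = jqModC K := by
  rw [iA, coeffMap_jqModC]

theorem pA_jqModC : pA A (jqModC ↥A) = jqModC (IsLocalRing.ResidueField ↥A) := by
  rw [pA, coeffMap_jqModC]

theorem iA_qExpand (d : ℕ) [NeZero d] (z : LaurentSeries ↥A) :
    iA A (qExpand ↥A d z) = qExpand K d (iA A z) := by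
  rw [iA, coeffMap_qExpand]

theorem pA_qExpand (d : ℕ) [NeZero d] (z : LaurentSeries ↥A) :
    pA A (qExpand ↥A d z) = qExpand (IsLocalRing.ResidueField ↥A) d (pA A z) := by
  rw [pA, coeffMap_qExpand]

end Fermat.Agent.GAL.Gauss
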